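import Fermat.Agent.Row24.Abel.CurvePoints
import Fermat.Agent.Row24.GlobalFunctions
import Fermat.Agent.Row24.Glue.Sheaf
import Fermat.Agent.Row24.Proper.Diff

/-!
# Charts of the curve as test schemes

A chart of the curve is a test scheme with its universal point; basic open subsets of charts are
charts; classes on two charts which agree on their overlap glue to a class on the curve.
-/

set_option autoImplicit false

universe u

open CategoryTheory CategoryTheory.Limits AlgebraicGeometry TopologicalSpace
open NeronModelInfra AlgebraicGeometry.RelPicard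

noncomputable section

namespace Fermat.Agent.Row24.Abel

open Curve Dict Chart

variable {k : Type u} [Field k] {X₀ : Scheme.{u}} {c : X₀ ⟶ Spec (CommRingCat.of k)}

namespace PointChart

variable {B : Type u} [CommRing B] [Algebra k B] (P : PointChart c B)

/-- The universal point of a chart. -/
abbrev incl : SchemeHomOver (affStr k B) c := P.point (AlgHom.id k B)

theorem isOpenImmersion_incl : IsOpenImmersion P.incl.1 := by
  rw [point_coe, show CommRingCat.ofHom ((AlgHom.id k B).toRingHom.comp P.e.symm.toRingHom) =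
    P.e.symm.toCommRingCatIso.hom from rfl]
  infer_instance

/-- The open subscheme of a chart is the spectrum of its functions. -/
def iso : (P.U : Scheme.{u}) ≅ Spec (CommRingCat.of B) :=
  P.isAffine.isoSpec ≪≫ Scheme.Spec.mapIso P.e.toCommRingCatIso.op

theorem iso_hom_incl : P.iso.hom ≫ P.incl.1 = P.U.ι := by
  show (P.isAffine.isoSpec.hom ≫ Spec.map P.e.toCommRingCatIso.hom) ≫
    Spec.map (CommRingCat.ofHom P.e.symm.toRingHom) ≫ P.isAffine.fromSpec = _
  rw [Category.assoc, ← Spec.map_comp_assoc,
    show CommRingCat.ofHom P.e.symm.toRingHom ≫ P.e.toCommRingCatIso.hom = 𝟙 _ from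
      CommRingCat.hom_ext (RingHom.ext fun b => P.e.apply_symm_apply b),
    Spec.map_id]
  erw [Category.id_comp]
  exact P.isAffine.isoSpec_hom_fromSpec

theorem iso_inv_ι : P.iso.inv ≫ P.U.ι = P.incl.1 := by
  rw [Iso.inv_comp_eq, iso_hom_incl]

/-- The open subscheme of a chart, over its spectrum. -/
def toSpec : SchemeHomOver (P.U.ι ≫ c) (affStr k B) :=
  ⟨P.iso.hom, by rw [← P.incl.2, ← Category.assoc, iso_hom_incl]⟩

/-- The spectrum of a chart, over the open subscheme. -/
def ofSpec : SchemeHomOver (affStr k B) (P.U.ι ≫ c) :=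
  ⟨P.iso.inv, by rw [← Category.assoc, iso_inv_ι]; exact P.incl.2⟩

variable (f : B)

theorem basic_algebra : ∃ e : Localization.Away f ≃+* Γ(X₀, X₀.basicOpen (P.e f)),
    ∀ b, e (algebraMap B (Localization.Away f) b) =
      X₀.presheaf.map (homOfLE (X₀.basicOpen_le (P.e f))).op (P.e b) := by
  have := P.isAffine.isLocalization_basicOpen (P.e f)
  have hM : Submonoid.map (P.e : B →* Γ(X₀, P.U)) (Submonoid.powers f) =
      Submonoid.powers (P.e f) := by
    rw [Submonoid.map_powers]; rfl
  exact ⟨IsLocalization.ringEquivOfRingEquiv (M := Submonoid.powers f)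
    (T := Submonoid.powers (P.e f)) (Localization.Away f) Γ(X₀, X₀.basicOpen (P.e f)) P.e hM,
    fun b => IsLocalization.ringEquivOfRingEquiv_eq (M := Submonoid.powers f)
      (T := Submonoid.powers (P.e f)) hM b⟩

/-- A basic open subset of a chart. -/
def basic : PointChart c (Localization.Away f) where
  U := X₀.basicOpen (P.e f)
  isAffine := P.isAffine.basicOpen _
  e := (P.basic_algebra f).choose
  const a := by
    rw [IsScalarTower.algebraMap_apply k B (Localization.Away f),
      (P.basic_algebra f).choose_spec, P.const]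
    exact map_constHom c (X₀.basicOpen_le (P.e f)) a

theorem basic_le : (P.basic f).U ≤ P.U := X₀.basicOpen_le _

theorem point_basic {A : Type u} [CommRing A] [Algebra k A]
    (χ : Localization.Away f →ₐ[k] A) :
    P.point (χ.comp (IsScalarTower.toAlgHom k B (Localization.Away f))) = (P.basic f).point χ :=
  P.point_restrict (P.basic f) (P.basic_le f) (IsScalarTower.toAlgHom k B (Localization.Away f))
    (fun b => ((P.basic_algebra f).choose_spec b).symm) χ

end PointChart

variable {ε : SchemeHomOver (𝟙 (Spec (CommRingCat.of k))) c}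

theorem classesMap_toSpec_injective {B : Type u} [CommRing B] [Algebra k B] (P : PointChart c B)
    {x y : RigidifiedLineBundle.Classes c ε (affStr k B)}
    (h : RigidifiedLineBundle.classesMap P.toSpec x = RigidifiedLineBundle.classesMap P.toSpec y) :
    x = y := by
  have hh := congrArg (RigidifiedLineBundle.classesMap P.ofSpec) h
  have hid : P.ofSpec.1 ≫ P.toSpec.1 = (⟨𝟙 _, Category.id_comp _⟩ :
      SchemeHomOver (affStr k B) (affStr k B)).1 := P.iso.inv_hom_id
  rwa [classesMap_classesMap P.toSpec P.ofSpec _ hid, classesMap_of_eq_id _ rfl,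
    classesMap_classesMap P.toSpec P.ofSpec _ hid, classesMap_of_eq_id _ rfl] at hh

/-- Classes on two charts covering the curve, equal on a third containing their overlap, come
from a class on the curve. -/
theorem exists_class_of_charts (hq : ∀ V : X₀.Opens, Function.Bijective ((pullback.snd c c).app V))
    {B B' L : Type u} [CommRing B] [Algebra k B] [CommRing B'] [Algebra k B'] [CommRing L]
    [Algebra k L] (P : PointChart c B) (P' : PointChart c B') (Q : PointChart c L)
    (hcov : P.U ⊔ P'.U = ⊤) (hQ : P.U ⊓ P'.U ≤ Q.U)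
    (ψ : B →ₐ[k] L) (ψ' : B' →ₐ[k] L) (hψ : P.point ψ = Q.incl) (hψ' : P'.point ψ' = Q.incl)
    (y : RigidifiedLineBundle.Classes c ε (affStr k B))
    (y' : RigidifiedLineBundle.Classes c ε (affStr k B'))
    (h : RigidifiedLineBundle.classesMap (affHom ψ) y =
      RigidifiedLineBundle.classesMap (affHom ψ') y') :
    ∃ α : RigidifiedLineBundle.Classes c ε c,
      RigidifiedLineBundle.classesMap P.incl α = y ∧
        RigidifiedLineBundle.classesMap P'.incl α = y' := by
  let U : ULift.{u} Bool → X₀.Opens := fun i => if i.down then P.U else P'.U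
  have hU : iSup U = ⊤ := top_le_iff.1 (hcov ▸ sup_le (le_iSup U ⟨true⟩) (le_iSup U ⟨false⟩))
  let x : ∀ i, RigidifiedLineBundle.Classes c ε ((U i).ι ≫ c) := fun i =>
    match i with
    | ⟨true⟩ => RigidifiedLineBundle.classesMap P.toSpec y
    | ⟨false⟩ => RigidifiedLineBundle.classesMap P'.toSpec y'
  -- both restrictions factor through the chart containing the overlap
  have hfac : ∀ {B₁ : Type u} [CommRing B₁] [Algebra k B₁] (P₁ : PointChart c B₁) (ψ₁ : B₁ →ₐ[k] L),
      P₁.point ψ₁ = Q.incl → ∀ (V : X₀.Opens) (hV₁ : V ≤ P₁.U) (hV : V ≤ Q.U)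
        (z : RigidifiedLineBundle.Classes c ε (affStr k B₁)),
      RigidifiedLineBundle.classesMap (Glue.openHomOver c hV₁)
          (RigidifiedLineBundle.classesMap P₁.toSpec z) =
        RigidifiedLineBundle.classesMap (Glue.openHomOver c hV)
          (RigidifiedLineBundle.classesMap Q.toSpec
            (RigidifiedLineBundle.classesMap (affHom ψ₁) z)) := by
    intro B₁ _ _ P₁ ψ₁ hψ₁ V hV₁ hV z
    let θ : SchemeHomOver (V.ι ≫ c) (affStr k B₁) :=
      ⟨(Glue.openHomOver c hV₁).1 ≫ P₁.toSpec.1, by
        rw [Category.assoc, P₁.toSpec.2, (Glue.openHomOver c hV₁).2]⟩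
    let θQ : SchemeHomOver (V.ι ≫ c) (affStr k L) :=
      ⟨(Glue.openHomOver c hV).1 ≫ Q.toSpec.1, by
        rw [Category.assoc, Q.toSpec.2, (Glue.openHomOver c hV).2]⟩
    rw [classesMap_classesMap P₁.toSpec (Glue.openHomOver c hV₁) θ rfl,
      classesMap_classesMap Q.toSpec (Glue.openHomOver c hV) θQ rfl,
      classesMap_classesMap (affHom ψ₁) θQ θ]
    have := P₁.isOpenImmersion_incl
    rw [← cancel_mono P₁.incl.1]
    simp only [θ, θQ, Category.assoc]
    rw [show P₁.toSpec.1 ≫ P₁.incl.1 = P₁.U.ι from P₁.iso_hom_incl, P₁.point_comp,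
      AlgHom.comp_id, hψ₁, show Q.toSpec.1 ≫ Q.incl.1 = Q.U.ι from Q.iso_hom_incl]
    exact (X₀.homOfLE_ι hV).trans (X₀.homOfLE_ι hV₁).symm
  obtain ⟨α, hα, -⟩ := Glue.existsUnique_classes_glue hq U hU x fun a b => by
    rcases a with ⟨_ | _⟩ <;> rcases b with ⟨_ | _⟩
    · rfl
    · show RigidifiedLineBundle.classesMap _ (RigidifiedLineBundle.classesMap P'.toSpec y') =
        RigidifiedLineBundle.classesMap _ (RigidifiedLineBundle.classesMap P.toSpec y)
      have hVQ : P'.U ⊓ P.U ≤ Q.U := inf_comm P.U P'.U ▸ hQ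
      rw [hfac P' ψ' hψ' _ _ hVQ y', hfac P ψ hψ _ _ hVQ y, h]
    · show RigidifiedLineBundle.classesMap _ (RigidifiedLineBundle.classesMap P.toSpec y) =
        RigidifiedLineBundle.classesMap _ (RigidifiedLineBundle.classesMap P'.toSpec y')
      rw [hfac P ψ hψ _ _ hQ y, hfac P' ψ' hψ' _ _ hQ y', h]
    · rfl
  refine ⟨α, classesMap_toSpec_injective P ?_, classesMap_toSpec_injective P' ?_⟩
  · rw [classesMap_classesMap P.incl P.toSpec (Glue.openOver c P.U) P.iso_hom_incl]
    exact hα ⟨true⟩
  · rw [classesMap_classesMap P'.incl P'.toSpec (Glue.openOver c P'.U) P'.iso_hom_incl]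
    exact hα ⟨false⟩

end Fermat.Agent.Row24.Abel

end
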