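import Fermat.Agent.Row24.Dict.CurveCharts

/-!
# Points of the curve and algebra maps on its two charts

A point of `C` with values in `A` lying in a chart is an algebra map from the ring of the chart;
a rational point lies in the first chart or is the base point.
-/

set_option autoImplicit false

universe u

open CategoryTheory CategoryTheory.Limits AlgebraicGeometry TopologicalSpace
open NeronModelInfra AlgebraicGeometry.RelPicard

noncomputable section

namespace Fermat.Agent.Row24.Abel

open Curve Dict Chart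

variable {k : Type u} [Field k] {X₀ : Scheme.{u}} {c : X₀ ⟶ Spec (CommRingCat.of k)}

/-- An affine open subset of the curve with a model of its functions. -/
structure PointChart (c : X₀ ⟶ Spec (CommRingCat.of k)) (B : Type u) [CommRing B] [Algebra k B]
    where
  /-- the open subset -/
  U : X₀.Opens
  isAffine : IsAffineOpen U
  /-- its functions -/
  e : B ≃+* Γ(X₀, U)
  const : ∀ a : k, e (algebraMap k B a) = constHom c U a

namespace PointChart

variable {B : Type u} [CommRing B] [Algebra k B] (P : PointChart c B)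

theorem fromSpec_comp : P.isAffine.fromSpec ≫ c = Spec.map (CommRingCat.ofHom (constHom c P.U)) := by
  have h := IsAffineOpen.SpecMap_appLE_fromSpec c (isAffineOpen_top (Spec (CommRingCat.of k)))
    P.isAffine (le_top : P.U ≤ c ⁻¹ᵁ ⊤)
  rw [IsAffineOpen.fromSpec_top, Scheme.isoSpec_Spec_inv, ← Spec.map_comp] at h
  exact h.symm

variable {A : Type u} [CommRing A] [Algebra k A]

/-- The point of an algebra map. -/
def point (φ : B →ₐ[k] A) : SchemeHomOver (affStr k A) c :=
  ⟨Spec.map (CommRingCat.ofHom (φ.toRingHom.comp P.e.symm.toRingHom)) ≫ P.isAffine.fromSpec, by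
    rw [Category.assoc, fromSpec_comp, ← Spec.map_comp]
    refine congrArg Spec.map (CommRingCat.hom_ext (RingHom.ext fun a => ?_))
    show φ (P.e.symm (constHom c P.U a)) = _
    rw [← P.const, RingEquiv.symm_apply_apply, AlgHom.commutes]
    rfl⟩

theorem point_coe (φ : B →ₐ[k] A) : (P.point φ).1 =
    Spec.map (CommRingCat.ofHom (φ.toRingHom.comp P.e.symm.toRingHom)) ≫ P.isAffine.fromSpec := rfl

theorem point_injective : Function.Injective (P.point (A := A)) := fun φ ψ h => by
  have h1 := Spec.map_injective ((cancel_mono P.isAffine.fromSpec).1 (congrArg Subtype.val h))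
  refine AlgHom.ext fun b => ?_
  have h2 := congr($h1 (P.e b))
  simpa using h2

/-- **A point in the chart is the point of a unique algebra map.** -/
theorem exists_point (p : SchemeHomOver (affStr k A) c) (hp : Set.range p.1 ⊆ (P.U : Set X₀)) :
    ∃ φ : B →ₐ[k] A, P.point φ = p := by
  have hr : Set.range p.1 ⊆ Set.range P.isAffine.fromSpec := by rwa [P.isAffine.range_fromSpec]
  obtain ⟨g, hg⟩ : ∃ g, Spec.map g = IsOpenImmersion.lift P.isAffine.fromSpec p.1 hr :=
    ⟨_, Spec.map_preimage _⟩
  have hc : CommRingCat.ofHom (constHom c P.U) ≫ g = CommRingCat.ofHom (algebraMap k A) := by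
    apply Spec.map_injective
    rw [Spec.map_comp, hg, ← fromSpec_comp, ← Category.assoc, IsOpenImmersion.lift_fac]
    exact p.2
  refine ⟨{ g.hom.comp P.e.toRingHom with commutes' := fun a => ?_ }, Subtype.ext ?_⟩
  · show g (P.e (algebraMap k B a)) = _
    rw [P.const]
    exact congr($hc a)
  · rw [point_coe, show CommRingCat.ofHom
      ((RingHom.comp g.hom P.e.toRingHom).comp P.e.symm.toRingHom) = g from
        CommRingCat.hom_ext (RingHom.ext fun x => by simp), hg, IsOpenImmersion.lift_fac]

theorem point_comp {A' : Type u} [CommRing A'] [Algebra k A'] (ψ : A →ₐ[k] A') (φ : B →ₐ[k] A) :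
    (affHom ψ).1 ≫ (P.point φ).1 = (P.point (ψ.comp φ)).1 := by
  rw [point_coe, point_coe, affHom_coe, ← Category.assoc, ← Spec.map_comp]
  rfl

/-- Compatibility with the restriction to a smaller chart. -/
theorem point_restrict {B' : Type u} [CommRing B'] [Algebra k B'] (Q : PointChart c B')
    (h : Q.U ≤ P.U) (j : B →ₐ[k] B')
    (hj : ∀ b, X₀.presheaf.map (homOfLE h).op (P.e b) = Q.e (j b)) (χ : B' →ₐ[k] A) :
    P.point (χ.comp j) = Q.point χ := by
  refine Subtype.ext ?_
  rw [point_coe, point_coe, ← IsAffineOpen.map_fromSpec P.isAffine Q.isAffine (homOfLE h).op,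
    ← Category.assoc, ← Spec.map_comp]
  congr 2
  refine CommRingCat.hom_ext (RingHom.ext fun x => ?_)
  show χ (j (P.e.symm x)) = χ (Q.e.symm (X₀.presheaf.map (homOfLE h).op x))
  conv_rhs => rw [← P.e.apply_symm_apply x, hj, RingEquiv.symm_apply_apply]

theorem closedPoint_mem_basicOpen (φ : B →ₐ[k] k) {b : B} (h : φ b ≠ 0) :
    (P.point φ).1 (IsLocalRing.closedPoint k) ∈ X₀.basicOpen (P.e b) := by
  rw [point_coe, Scheme.Hom.comp_apply]
  show _ ∈ P.isAffine.fromSpec ⁻¹ᵁ X₀.basicOpen (P.e b)
  rw [IsAffineOpen.fromSpec_preimage_basicOpen]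
  show P.e b ∉ ((IsLocalRing.closedPoint k).asIdeal.comap (φ.toRingHom.comp P.e.symm.toRingHom))
  intro hmem
  rw [Ideal.mem_comap] at hmem
  simp [IsLocalRing.closedPoint, h] at hmem

end PointChart

variable {R : CurveRings k} (m : ChartModel c R) {A : Type u} [CommRing A] [Algebra k A]

/-- The first chart. -/
def chart1 : PointChart c R.B1 where
  U := m.U1
  isAffine := m.isAffine1
  e := RingEquiv.ofBijective m.hom1 m.bijective1
  const := m.const1

/-- The second chart. -/
def chart2 : PointChart c R.B2 where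
  U := m.U2
  isAffine := m.isAffine2
  e := RingEquiv.ofBijective m.hom2 m.bijective2
  const := m.const2

/-- The overlap. -/
def chart12 : PointChart c R.B12 where
  U := m.U1 ⊓ m.U2
  isAffine := m.isAffine12
  e := RingEquiv.ofBijective m.hom m.bijective
  const := m.const

theorem point12_eq1 (χ : R.B12 →ₐ[k] A) :
    (chart1 m).point (χ.comp R.B1.val) = (chart12 m).point χ :=
  (chart1 m).point_restrict (chart12 m) inf_le_left R.B1.val m.res1 χ

theorem point12_eq2 (χ : R.B12 →ₐ[k] A) :
    (chart2 m).point (χ.comp R.B2.val) = (chart12 m).point χ :=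
  (chart2 m).point_restrict (chart12 m) inf_le_right R.B2.val m.res2 χ

/-- Every point lies in one of the two charts. -/
theorem mem_charts (x : X₀) : x ∈ (chart1 m).U ∨ x ∈ (chart2 m).U := by
  have h : x ∈ m.U1 ⊔ m.U2 := m.sup_eq ▸ trivial
  exact h

variable {ε : SchemeHomOver (𝟙 (Spec (CommRingCat.of k))) c}

theorem affStr_self : affStr k k = 𝟙 (Spec (CommRingCat.of k)) := Spec.map_id _

/-- A rational point as a point with values in `k`. -/
def ofRat (p : SchemeHomOver (𝟙 (Spec (CommRingCat.of k))) c) : SchemeHomOver (affStr k k) c :=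
  ⟨p.1, p.2.trans affStr_self.symm⟩

/-- The base point is the point of the augmentation. -/
theorem point2_aug (hb : m.Based ε) : ((chart2 m).point R.aug).1 = ε.1 := by
  have h := IsAffineOpen.SpecMap_appLE_fromSpec ε.1 m.isAffine2
    (isAffineOpen_top (Spec (CommRingCat.of k))) hb.preimage.ge
  rw [IsAffineOpen.fromSpec_top, Scheme.isoSpec_Spec_inv] at h
  rw [PointChart.point_coe]
  show Spec.map _ ≫ m.isAffine2.fromSpec = _
  have he : CommRingCat.ofHom (R.aug.toRingHom.comp (chart2 m).e.symm.toRingHom) =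
      ε.1.appLE m.U2 ⊤ hb.preimage.ge ≫ (Scheme.ΓSpecIso (CommRingCat.of k)).hom := by
    refine CommRingCat.hom_ext (RingHom.ext fun x => ?_)
    obtain ⟨b, rfl⟩ := m.bijective2.2 x
    show R.aug ((chart2 m).e.symm ((chart2 m).e b)) = (Scheme.ΓSpecIso (CommRingCat.of k)).hom
      (ε.1.appLE m.U2 ⊤ hb.preimage.ge (m.hom2 b))
    rw [RingEquiv.symm_apply_apply, hb.aug]
    simp
  rw [he, Spec.map_comp, Category.assoc, h, ← Category.assoc, ← Spec.map_comp,
    Iso.inv_hom_id, Spec.map_id, Category.id_comp]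

/-- The augmentation is the only map on the second chart killing `y`. -/
theorem eq_aug_of_apply_y (φ : R.B2 →ₐ[k] k) (h : φ ⟨R.y, R.y_mem⟩ = 0) : φ = R.aug := by
  obtain ⟨d, hd⟩ := R.exists_pow_ker_aug_le
  refine AlgHom.ext fun b => ?_
  have hmem : b - algebraMap k R.B2 (R.aug b) ∈ RingHom.ker R.aug := by
    rw [RingHom.mem_ker, map_sub, AlgHom.commutes]; simp
  obtain ⟨r, hr⟩ := Ideal.mem_span_singleton'.1 (hd (Ideal.pow_mem_pow hmem d))
  have h0 : φ ((b - algebraMap k R.B2 (R.aug b)) ^ d) = 0 := by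
    rw [← hr, map_mul, h, mul_zero]
  rw [map_pow] at h0
  have h1 := eq_zero_of_pow_eq_zero h0
  rw [map_sub, AlgHom.commutes, sub_eq_zero] at h1
  simpa using h1

/-- **A rational point is a point of the first chart or the base point.** -/
theorem exists_point1_or_eq (hb : m.Based ε) (p : SchemeHomOver (𝟙 (Spec (CommRingCat.of k))) c) :
    (∃ φ : R.B1 →ₐ[k] k, ((chart1 m).point φ).1 = p.1) ∨ p = ε := by
  have hrange : ∀ {U : X₀.Opens}, p.1 (IsLocalRing.closedPoint k) ∈ U →
      Set.range (ofRat p).1 ⊆ (U : Set X₀) := by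
    rintro U hU _ ⟨q, rfl⟩
    rw [Subsingleton.elim (α := PrimeSpectrum k) q (IsLocalRing.closedPoint k)]
    exact hU
  by_cases h1 : p.1 (IsLocalRing.closedPoint k) ∈ (chart1 m).U
  · obtain ⟨φ, hφ⟩ := (chart1 m).exists_point (ofRat p) (hrange h1)
    exact Or.inl ⟨φ, congrArg Subtype.val hφ⟩
  · obtain ⟨φ, hφ⟩ := (chart2 m).exists_point (ofRat p)
      (hrange ((mem_charts m _).resolve_left h1))
    have hφ' : ((chart2 m).point φ).1 = p.1 := congrArg Subtype.val hφ
    by_cases hy : φ ⟨R.y, R.y_mem⟩ = 0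
    · rw [eq_aug_of_apply_y φ hy] at hφ'
      exact Or.inr (Subtype.ext (hφ'.symm.trans (point2_aug m hb)))
    · refine absurd ?_ h1
      have h2 := (chart2 m).closedPoint_mem_basicOpen φ hy
      rw [hφ', show (chart2 m).e ⟨R.y, R.y_mem⟩ = m.hom2 ⟨R.y, R.y_mem⟩ from rfl] at h2
      exact (show _ ∈ m.U1 ⊓ m.U2 from m.basic2 ▸ h2).1

end Fermat.Agent.Row24.Abel

end
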