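import Fermat.Agent.Row24.Abel.Charts
import Fermat.Agent.Row24.Chart.PointBundle
import Fermat.Agent.Row24.Crit.LiftBundles
import Fermat.Agent.Row24.Dict.Interface

/-!
# The Abel class on the curve

The classes of the differences of the ideals of a moving point and of the base point glue to a
rigidified class on `C × C`; its restriction to the base point is trivial and its restriction to
a rational point is the difference of the two ideal bundles.
-/

set_option autoImplicit false

universe u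

open CategoryTheory CategoryTheory.Limits AlgebraicGeometry TopologicalSpace
open NeronModelInfra AlgebraicGeometry.RelPicard

noncomputable section

namespace Fermat.Agent.Row24.Abel

open Curve Dict Chart

variable {k : Type u} [Field k] [IsAlgClosed k] {X₀ : Scheme.{u}}
  {c : X₀ ⟶ Spec (CommRingCat.of k)} {R : CurveRings k}
  {ε : SchemeHomOver (𝟙 (Spec (CommRingCat.of k))) c}

/-- The bundle of a point of the first chart minus the base point. -/
def diff1 (R : CurveRings k) {A : Type u} [CommRing A] [Algebra k A] (φ : R.B1 →ₐ[k] A) :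
    Glued R A :=
  (R.pt1 φ).diff (R.ptO A)

/-- The bundle of a point of the second chart minus the base point. -/
def diff2 (R : CurveRings k) {A : Type u} [CommRing A] [Algebra k A] (φ : R.B2 →ₐ[k] A) :
    Glued R A :=
  (R.pt2 φ).diff (R.ptO A)

omit [IsAlgClosed k] in
/-- Pullbacks of a bundle with given glued bundle have the pushed forward glued bundle. -/
theorem exists_iso_pullback (Δ : Dictionary c ε R) {A A' : Type u} [CommRing A] [Algebra k A]
    [CommRing A'] [Algebra k A'] {θ : A →ₐ[k] A'} {M : RigidifiedLineBundle c ε (affStr k A)}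
    {N : Glued R A} {N' : Glued R A'} (e : Glued.Iso (Δ.glued A M) N) (f : Glued.Hom θ N N') :
    Nonempty (Glued.Iso (Δ.glued A' (M.pullbackAlong (affHom θ))) N') := by
  obtain ⟨g⟩ := Δ.nonempty_hom A A' θ M
  exact Crit.nonempty_iso_of_hom g (Crit.isoCompHom e f)

theorem nonempty_diff1_hom {A A' : Type u} [CommRing A] [Algebra k A] [CommRing A'] [Algebra k A']
    (θ : A →ₐ[k] A') (φ : R.B1 →ₐ[k] A) :
    Nonempty (Glued.Hom θ (diff1 R φ) (diff1 R (θ.comp φ))) := by
  obtain ⟨f⟩ := R.nonempty_ptO_hom (A := A) θ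
  exact ⟨(R.pt1Hom θ φ).diff f⟩

theorem nonempty_diff2_hom {A A' : Type u} [CommRing A] [Algebra k A] [CommRing A'] [Algebra k A']
    (θ : A →ₐ[k] A') (φ : R.B2 →ₐ[k] A) :
    Nonempty (Glued.Hom θ (diff2 R φ) (diff2 R (θ.comp φ))) := by
  obtain ⟨f⟩ := R.nonempty_ptO_hom (A := A) θ
  exact ⟨(R.pt2Hom θ φ).diff f⟩

/-- At the base point the bundle is trivial. -/
theorem nonempty_diff2_aug (R : CurveRings k) :
    Nonempty (Glued.Iso (diff2 R R.aug) (Glued.trivial R k)) := by
  have h : (Algebra.ofId k k).comp R.aug = R.aug := AlgHom.ext fun z => rfl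
  have e := Glued.Iso.diffSelf (R.ptO k)
  rw [diff2]
  conv => enter [1, 1]; rw [← h]
  exact ⟨e⟩

/-- Near the base point its ideal is principal. -/
theorem exists_principal (R : CurveRings k) : ∃ f b : R.B2, R.aug f ≠ 0 ∧ R.aug b = 0 ∧
    b ≠ 0 ∧ ∀ z, R.aug z = 0 → b ∣ f * z := by
  have := R.isDedekind2
  have hmax : (RingHom.ker R.aug).IsMaximal :=
    RingHom.ker_isMaximal_of_surjective _ fun a => ⟨algebraMap k R.B2 a, R.aug.commutes a⟩
  have hne : RingHom.ker R.aug ≠ ⊥ := fun h0 => R.not_finite_B2 <|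
    Module.Finite.of_surjective (Algebra.linearMap k R.B2) fun z => ⟨R.aug z, Eq.symm <|
      sub_eq_zero.1 <| by
        have : z - algebraMap k R.B2 (R.aug z) ∈ RingHom.ker R.aug := by simp [RingHom.mem_ker]
        rwa [h0, Ideal.mem_bot] at this⟩
  obtain ⟨b, hb, hb0, f, hf, hdvd⟩ := exists_notMem_mul_mem_span hne (RingHom.ker R.aug)
  exact ⟨f, b, hf, hb, hb0, fun z hz => Ideal.mem_span_singleton.1 (hdvd z hz)⟩

variable {m : ChartModel c R}

omit [IsAlgClosed k] in
theorem chart12_basic_le (f : R.B2) :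
    (chart1 m).U ⊓ ((chart2 m).basic f).U ≤ ((chart12 m).basic (f : R.B12)).U := by
  show m.U1 ⊓ X₀.basicOpen (m.hom2 f) ≤ X₀.basicOpen (m.hom (f : R.B12))
  rw [← m.res2, Scheme.basicOpen_res]
  exact le_inf (le_inf inf_le_left (inf_le_right.trans (X₀.basicOpen_le _))) inf_le_right

omit [IsAlgClosed k] in
theorem eq_ker_aug_of_y_mem {P : Ideal R.B2} [hP : P.IsPrime] (h : (⟨R.y, R.y_mem⟩ : R.B2) ∈ P) :
    P = RingHom.ker R.aug := by
  have hmax : (RingHom.ker R.aug).IsMaximal :=
    RingHom.ker_isMaximal_of_surjective _ fun a => ⟨algebraMap k R.B2 a, R.aug.commutes a⟩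
  obtain ⟨d, hd⟩ := R.exists_pow_ker_aug_le
  exact (hmax.eq_of_le hP.ne_top
    (Ideal.IsPrime.le_of_pow_le (hd.trans ((Ideal.span_singleton_le_iff_mem P).2 h)))).symm

omit [IsAlgClosed k] in
theorem cover {f : R.B2} (hf : R.aug f ≠ 0) :
    (chart1 m).U ⊔ ((chart2 m).basic f).U = ⊤ := by
  refine top_le_iff.1 fun x _ => ?_
  rcases mem_charts m x with h1 | h2
  · exact Or.inl h1
  obtain ⟨p, rfl⟩ : x ∈ Set.range m.isAffine2.fromSpec := by
    rw [IsAffineOpen.range_fromSpec]; exact h2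
  have hmem : ∀ z, m.isAffine2.fromSpec p ∈ X₀.basicOpen (m.hom2 z) ↔ m.hom2 z ∉ p.asIdeal := by
    intro z
    show p ∈ m.isAffine2.fromSpec ⁻¹ᵁ X₀.basicOpen (m.hom2 z) ↔ _
    rw [IsAffineOpen.fromSpec_preimage_basicOpen]
    rfl
  by_cases hy : m.hom2 ⟨R.y, R.y_mem⟩ ∈ p.asIdeal
  · refine Or.inr ?_
    show m.isAffine2.fromSpec p ∈ X₀.basicOpen (m.hom2 f)
    rw [hmem]
    intro hfP
    have : p.asIdeal.IsPrime := p.isPrime
    have hP : f ∈ p.asIdeal.comap m.hom2 := hfP
    rw [eq_ker_aug_of_y_mem (P := p.asIdeal.comap m.hom2)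
      (hP := Ideal.IsPrime.comap m.hom2) hy] at hP
    exact hf hP
  · exact Or.inl (show _ ∈ m.U1 from (m.basic2 ▸ (hmem _).2 hy : _ ∈ m.U1 ⊓ m.U2).1)

/-- The glued bundle of a rational point. -/
def pointBundle (m : ChartModel c R) (p : SchemeHomOver (Dict.affStr k k) c) : Glued R k :=
  open Classical in
  if h : ∃ φ, (chart1 m).point φ = p then diff1 R h.choose else Glued.trivial R k

theorem pointBundle_point1 (φ : R.B1 →ₐ[k] k) :
    pointBundle m ((chart1 m).point φ) = diff1 R φ := by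
  have h : ∃ φ', (chart1 m).point φ' = (chart1 m).point φ := ⟨φ, rfl⟩
  rw [pointBundle, dif_pos h, (chart1 m).point_injective h.choose_spec]

variable (m) in
/-- Every point of the first chart occurs. -/
theorem exists_pointBundle_iso (φ : R.B1 →ₐ[k] k) : ∃ p : SchemeHomOver (Dict.affStr k k) c,
    Nonempty (Glued.Iso (pointBundle m p) ((R.pt1 φ).diff (R.ptO k))) :=
  ⟨(chart1 m).point φ, by rw [pointBundle_point1]; exact ⟨Glued.Iso.refl _⟩⟩

variable [IsProper c] [IsIntegral X₀]

/-- The class on the curve with the given bundles on the two charts. -/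
theorem exists_class_universal (Δ : Dictionary c ε R) (m : ChartModel c R) {f b : R.B2}
    (hf : R.aug f ≠ 0) (hb0 : R.aug b = 0) (hbne : b ≠ 0)
    (hdvd : ∀ z, R.aug z = 0 → b ∣ f * z) :
    ∃ α : RigidifiedLineBundle.Classes c ε c,
      (∃ M : RigidifiedLineBundle c ε (affStr k R.B1),
        RigidifiedLineBundle.classesMap (chart1 m).incl α = Quotient.mk _ M ∧
          Nonempty (Glued.Iso (Δ.glued R.B1 M) (diff1 R (AlgHom.id k R.B1)))) ∧
      ∃ M : RigidifiedLineBundle c ε (affStr k (Localization.Away f)),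
        RigidifiedLineBundle.classesMap ((chart2 m).basic f).incl α = Quotient.mk _ M ∧
          Nonempty (Glued.Iso (Δ.glued _ M)
            (diff2 R (IsScalarTower.toAlgHom k R.B2 (Localization.Away f)))) := by
  let L := Localization.Away f
  let φ₂ : R.B2 →ₐ[k] L := IsScalarTower.toAlgHom k R.B2 L
  let L12 := Localization.Away (f : R.B12)
  let χ : R.B12 →ₐ[k] L12 := IsScalarTower.toAlgHom k R.B12 L12
  let P := chart1 m
  let P' := (chart2 m).basic f
  let Q := (chart12 m).basic (f : R.B12)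
  have hf0 : f ≠ 0 := fun h => hf (by rw [h, map_zero])
  have : IsDomain L := IsLocalization.isDomain_localization
    (powers_le_nonZeroDivisors_of_noZeroDivisors hf0)
  have hfu : IsUnit (φ₂ f) := IsLocalization.map_units L (⟨f, Submonoid.mem_powers f⟩ : Submonoid.powers f)
  -- the universal bundles on the two charts
  obtain ⟨M₁, ⟨e₁⟩⟩ := Δ.exists_bundle R.B1 (diff1 R (AlgHom.id k R.B1))
    ((R.pt1_rigid _).diff (R.ptO_rigid _))
  have hrig : (R.pt2 φ₂).Rigid := by
    refine R.pt2_rigid φ₂ b hb0 (fun z hz => (mul_eq_zero.1 hz).resolve_left ?_) fun z hz => ?_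
    · exact fun h => hbne (IsLocalization.injective L
        (powers_le_nonZeroDivisors_of_noZeroDivisors hf0) (h.trans (map_zero _).symm))
    · exact (IsUnit.dvd_mul_left hfu).1 (map_mul φ₂ f z ▸ map_dvd φ₂ (hdvd z hz))
  obtain ⟨M₂, ⟨e₂⟩⟩ := Δ.exists_bundle L (diff2 R φ₂) (hrig.diff (R.ptO_rigid _))
  -- the maps from the charts to the overlap
  let ψ : R.B1 →ₐ[k] L12 := χ.comp R.B1.val
  let ψ' : L →ₐ[k] L12 := IsLocalization.liftAlgHom (M := Submonoid.powers f)
    (f := χ.comp R.B2.val) fun y => by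
      obtain ⟨_, n, rfl⟩ := y
      rw [map_pow]
      exact (IsLocalization.map_units L12
        (⟨(f : R.B12), Submonoid.mem_powers _⟩ : Submonoid.powers (f : R.B12))).pow n
  have hψ'φ : ψ'.comp φ₂ = χ.comp R.B2.val :=
    AlgHom.ext fun z => IsLocalization.lift_eq _ z
  have hQ : (chart12 m).point χ = Q.incl := by
    exact (chart12 m).point_basic (f : R.B12) (AlgHom.id k L12)
  have hψ : P.point ψ = Q.incl := (point12_eq1 m χ).trans hQ
  have hψ' : P'.point ψ' = Q.incl := by
    rw [← (chart2 m).point_basic, hψ'φ, point12_eq2, hQ]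
  obtain ⟨α, hα₁, hα₂⟩ := exists_class_of_charts (ε := ε)
    (fun V => bijective_app_snd c c V) P P' Q (cover hf) (chart12_basic_le f)
    ψ ψ' hψ hψ' (Quotient.mk _ M₁) (Quotient.mk _ M₂) (Quotient.sound ((Δ.iso_iff L12 _ _).1 (by
      obtain ⟨g₁⟩ := nonempty_diff1_hom ψ (AlgHom.id k R.B1)
      obtain ⟨g₂⟩ := nonempty_diff2_hom ψ' φ₂
      obtain ⟨i₁⟩ := exists_iso_pullback Δ e₁ g₁
      obtain ⟨i₂⟩ := exists_iso_pullback Δ e₂ g₂
      rw [AlgHom.comp_id] at i₁
      have h : Nonempty (Glued.Iso (diff1 R ψ) (diff2 R (ψ'.comp φ₂))) := by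
        rw [hψ'φ]
        exact ⟨(R.pt12Iso χ).diff (Glued.Iso.refl _)⟩
      obtain ⟨i⟩ := h
      exact ⟨(i₁.trans i).trans i₂.symm⟩)))
  exact ⟨α, ⟨M₁, hα₁, ⟨e₁⟩⟩, M₂, hα₂, ⟨e₂⟩⟩

omit [IsAlgClosed k] [IsProper c] [IsIntegral X₀] in
/-- The underlying morphism of `ofRat p`; stated separately because the kernel is slow to check
this by unfolding in place. -/
theorem ofRat_coe (p : SchemeHomOver (𝟙 (Spec (CommRingCat.of k))) c) : (ofRat p).1 = p.1 := by
  obtain ⟨q, h⟩ := p
  show (ofRat ⟨q, h⟩).1 = q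
  rfl

/-- **The Abel class** and its values at the rational points. -/
theorem exists_abelClass (Δ : Dictionary c ε R) (hb : m.Based ε) :
    ∃ α : RigidifiedLineBundle.Classes c ε c,
      RigidifiedLineBundle.classesMap ε α = unitCls _ ∧
      ∀ p, ∃ M : RigidifiedLineBundle c ε (Dict.affStr k k),
        Quotient.mk _ M = RigidifiedLineBundle.classesMap p α ∧
          Nonempty (Glued.Iso (Δ.glued k M) (pointBundle m p)) := by
  obtain ⟨f, b, hf, hb0, hbne, hdvd⟩ := exists_principal R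
  obtain ⟨α, ⟨M₁, hα₁, ⟨e₁⟩⟩, M₂, hα₂, ⟨e₂⟩⟩ := exists_class_universal Δ m hf hb0 hbne hdvd
  let L := Localization.Away f
  let φ₂ : R.B2 →ₐ[k] L := IsScalarTower.toAlgHom k R.B2 L
  let P := chart1 m
  let P' := (chart2 m).basic f
  -- values at points
  have hpt : ∀ {B : Type u} [CommRing B] [Algebra k B] (P₀ : PointChart c B) (θ : B →ₐ[k] k)
      (p : SchemeHomOver (Dict.affStr k k) c) (M : RigidifiedLineBundle c ε (affStr k B)),
      P₀.point θ = p → RigidifiedLineBundle.classesMap P₀.incl α = Quotient.mk _ M →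
      RigidifiedLineBundle.classesMap p α = Quotient.mk _ (M.pullbackAlong (affHom θ)) := by
    intro B _ _ P₀ θ p M hp hM
    rw [← classesMap_classesMap P₀.incl (affHom θ) p (by rw [P₀.point_comp, AlgHom.comp_id, hp]),
      hM]
    rfl
  let ε₀ : SchemeHomOver (Dict.affStr k k) c := ofRat ε
  obtain ⟨aug', haug⟩ : ∃ a : L →ₐ[k] k, a.comp φ₂ = R.aug := by
    refine ⟨IsLocalization.liftAlgHom (M := Submonoid.powers f) (f := R.aug) fun y => ?_,
      AlgHom.ext fun z => IsLocalization.lift_eq _ z⟩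
    obtain ⟨_, n, rfl⟩ := y
    rw [map_pow]
    exact (IsUnit.mk0 _ hf).pow n
  have hε₀ : P'.point aug' = ε₀ := by
    rw [← (chart2 m).point_basic, haug]
    exact Subtype.ext ((point2_aug m hb).trans (ofRat_coe ε).symm)
  obtain ⟨Me, hMe, ⟨ie⟩⟩ : ∃ Me, RigidifiedLineBundle.classesMap ε₀ α = Quotient.mk _ Me ∧
      Nonempty (Glued.Iso (Δ.glued k Me) (Glued.trivial R k)) := by
    refine ⟨_, hpt P' aug' ε₀ M₂ hε₀ hα₂, ?_⟩
    obtain ⟨g⟩ := nonempty_diff2_hom aug' φ₂
    obtain ⟨i⟩ := exists_iso_pullback Δ e₂ g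
    rw [haug] at i
    obtain ⟨j⟩ := nonempty_diff2_aug R
    exact ⟨i.trans j⟩
  refine ⟨α, ?_, fun p => ?_⟩
  · have hu : RigidifiedLineBundle.classesMap ε₀ α = unitCls _ := by
      rw [hMe]
      obtain ⟨j⟩ := Δ.unit_iso k
      exact Quotient.sound ((Δ.iso_iff k _ _).1 ⟨ie.trans j.symm⟩)
    let τ : SchemeHomOver (𝟙 (Spec (CommRingCat.of k))) (Dict.affStr k k) :=
      ⟨𝟙 _, by rw [affStr_self, Category.comp_id]⟩
    rw [← classesMap_classesMap ε₀ τ ε ((Category.id_comp _).trans (ofRat_coe ε)), hu,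
      classesMap_unitCls]
  · by_cases h : ∃ φ, (chart1 m).point φ = p
    · obtain ⟨φ, rfl⟩ := h
      refine ⟨_, (hpt P φ _ M₁ rfl hα₁).symm, ?_⟩
      rw [pointBundle_point1]
      obtain ⟨g⟩ := nonempty_diff1_hom φ (AlgHom.id k R.B1)
      rw [AlgHom.comp_id] at g
      exact exists_iso_pullback Δ e₁ g
    · have hp : p = ε₀ := by
        rcases exists_point1_or_eq m hb ⟨p.1, p.2.trans affStr_self⟩ with ⟨φ, hφ⟩ | he
        · exact absurd ⟨φ, Subtype.ext hφ⟩ h
        · exact Subtype.ext ((show p.1 = ε.1 from congrArg (fun q => q.1) he).trans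
            (ofRat_coe ε).symm)
      subst hp
      refine ⟨Me, hMe.symm, ?_⟩
      rw [pointBundle, dif_neg h]
      exact ⟨ie⟩

end Fermat.Agent.Row24.Abel

end
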